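import Mathlib
import Fermat.Agent.LT.T7.H561.OpsSpec

/-!
# Row LT, tower T7, leaf T7.L2.2.B4.4 = `OpsCommC561` (registry row 2425; helper929)

OFF-MAIN.  `opsCommC929 : T7.H561.OpsCommC561 K K'`: the operators at two different places of the
orbit commute.  Proof: the orbit places `o j`, `j < ℓ`, are pairwise different (`orbit_rel` is
injective, `orbit_ne`), and two elements of `GL₂(𝔸)` supported at different finite places commute
(componentwise).  Theorems only, every name ends in `929`.
-/

set_option autoImplicit false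

open AutomorphicForm IsDedekindDomain NumberField MeasureTheory
open scoped ComplexConjugate Matrix

noncomputable section

namespace Fermat.Agent.LT.T7.H929

open Fermat.Agent.LT.H556 Fermat.Agent.LT.H556.A0 Fermat.Agent.LT.T7 Fermat.Agent.LT.T7.H561

section Local

variable {K : Type} [Field K] [NumberField K]

/-- The finite component of a product. -/
theorem finComp_mul929 (v : HeightOneSpectrum (𝓞 K)) (g h : G K) :
    finComp v (g * h) = finComp v g * finComp v h := by
  ext i j
  simp only [finComp, Matrix.GeneralLinearGroup.coe_mul, Matrix.mul_apply, Fin.sum_univ_two]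
  rfl

/-- The infinite component of a product. -/
theorem infEntry_mul929 (w : InfinitePlace K) (g h : G K) (i j : Fin 2) :
    (((g * h : G K) : Matrix (Fin 2) (Fin 2) (Adl K)) i j).1 w
      = ((g : Matrix (Fin 2) (Fin 2) (Adl K)) i 0).1 w
          * ((h : Matrix (Fin 2) (Fin 2) (Adl K)) 0 j).1 w
        + ((g : Matrix (Fin 2) (Fin 2) (Adl K)) i 1).1 w
          * ((h : Matrix (Fin 2) (Fin 2) (Adl K)) 1 j).1 w := by
  simp only [Matrix.GeneralLinearGroup.coe_mul, Matrix.mul_apply, Fin.sum_univ_two]
  rfl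

/-- Two adeles with the same components are equal. -/
theorem adl_ext929 {a b : Adl K} (h1 : ∀ w : InfinitePlace K, a.1 w = b.1 w)
    (h2 : ∀ v : HeightOneSpectrum (𝓞 K), a.2 v = b.2 v) : a = b :=
  Prod.ext (funext h1) (FiniteAdeleRing.ext (K := K) h2)

/-- **Elements supported at different finite places commute.** -/
theorem comm_of_local929 {v v' : HeightOneSpectrum (𝓞 K)} (hv : v ≠ v') {g h : G K}
    (hg : IsLocalAtFin v g) (hh : IsLocalAtFin v' h) : g * h = h * g := by
  apply Units.ext
  ext i j
  apply adl_ext929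
  · intro w
    have e1 := infEntry_mul929 w g h i j
    have e2 := infEntry_mul929 w h g i j
    have hgw := hg.1 w
    have hhw := hh.1 w
    unfold TrivAtInf at hgw hhw
    change (((g * h : G K) : Matrix (Fin 2) (Fin 2) (Adl K)) i j).1 w
      = (((h * g : G K) : Matrix (Fin 2) (Fin 2) (Adl K)) i j).1 w
    rw [e1, e2, hgw, hgw, hhw, hhw, hgw, hgw, hhw, hhw]
  · intro p
    have key : finComp p (g * h) = finComp p (h * g) := by
      rw [finComp_mul929, finComp_mul929]
      by_cases hp : p = v
      · have hp' : p ≠ v' := fun e => hv (hp.symm.trans e)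
        have h1 : finComp p h = 1 := hh.2 p hp'
        rw [h1, mul_one, one_mul]
      · have h1 : finComp p g = 1 := hg.2 p hp
        rw [h1, mul_one, one_mul]
    exact congrFun (congrFun key i) j

end Local

section Orbit

variable {K : Type} [Field K] [NumberField K]

/-- `PlaceRel` is injective in the source. -/
theorem placeRel_inj929 (s : T5.AdelicAut K) {w₁ w₂ w' : HeightOneSpectrum (𝓞 K)}
    (h₁ : T5.PlaceRel s w₁ w') (h₂ : T5.PlaceRel s w₂ w') : w₁ = w₂ := by
  unfold T5.PlaceRel at h₁ h₂
  have e : Ideal.map (NumberField.RingOfIntegers.mapRingEquiv s.σ) w₁.asIdeal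
      = Ideal.map (NumberField.RingOfIntegers.mapRingEquiv s.σ) w₂.asIdeal := h₁.symm.trans h₂
  have inj : Function.Injective
      (Ideal.map (NumberField.RingOfIntegers.mapRingEquiv s.σ)) := by
    intro I J hIJ
    have := congrArg (Ideal.comap (NumberField.RingOfIntegers.mapRingEquiv s.σ)) hIJ
    rwa [Ideal.comap_map_of_bijective _ (RingEquiv.bijective _),
      Ideal.comap_map_of_bijective _ (RingEquiv.bijective _)] at this
  exact HeightOneSpectrum.ext (inj e)

/-- The places of the orbit are pairwise different below the period. -/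
theorem orbit_lt_ne929 (s : T5.AdelicAut K) (o : ℕ → HeightOneSpectrum (𝓞 K)) (ℓ : ℕ)
    (hrel : ∀ j : ℕ, T5.PlaceRel s (o j) (o (j + 1)))
    (hne : ∀ j : ℕ, 0 < j → j < ℓ → o j ≠ o 0) :
    ∀ j j' : ℕ, j < j' → j' < ℓ → o j ≠ o j' := by
  intro j
  induction j with
  | zero =>
    intro j' h0 hl e
    exact hne j' h0 hl e.symm
  | succ n ih =>
    intro j' hlt hl e
    obtain ⟨m, rfl⟩ : ∃ m, j' = m + 1 := ⟨j' - 1, by omega⟩
    have hnm : n < m := by omega
    have hml : m < ℓ := by omega
    have h1 : T5.PlaceRel s (o n) (o (n + 1)) := hrel n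
    have h2 : T5.PlaceRel s (o m) (o (n + 1)) := by
      have := hrel m
      rwa [← e] at this
    exact ih m hnm hml (placeRel_inj929 s h1 h2)

/-- The places of the orbit are pairwise different below the period (symmetric form). -/
theorem orbit_ne929 (s : T5.AdelicAut K) (o : ℕ → HeightOneSpectrum (𝓞 K)) (ℓ : ℕ)
    (hrel : ∀ j : ℕ, T5.PlaceRel s (o j) (o (j + 1)))
    (hne : ∀ j : ℕ, 0 < j → j < ℓ → o j ≠ o 0)
    {j j' : ℕ} (hj : j < ℓ) (hj' : j' < ℓ) (hjj : j ≠ j') : o j ≠ o j' := by
  rcases Nat.lt_or_gt_of_ne hjj with h | h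
  · exact orbit_lt_ne929 s o ℓ hrel hne j j' h hj'
  · exact fun e => orbit_lt_ne929 s o ℓ hrel hne j' j h hj e.symm

end Orbit

section Leaf

variable (K K' : Type) [Field K] [NumberField K] [Field K'] [NumberField K'] [Algebra K K']

/-- **LEAF T7.L2.2.B4.4 = OPS-COMM** (registry row 2425). -/
theorem opsCommC929 : OpsCommC561 K K' := by
  intro ℓ Φ Dt hs Hs ω hsys j j' hj hj' hjj ψ x
  have hne : Dt.o j ≠ Dt.o j' :=
    orbit_ne929 Dt.s Dt.o ℓ hs.data.orbit_rel hs.data.orbit_ne hj hj' hjj
  have cHH : ∀ h ∈ Hs j, ∀ h' ∈ Hs j', h * h' = h' * h := fun h hh h' hh' =>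
    comm_of_local929 hne (hsys.Hs_local j h hh) (hsys.Hs_local j' h' hh')
  have cHω : ∀ h ∈ Hs j, h * ω j' = ω j' * h := fun h hh =>
    comm_of_local929 hne (hsys.Hs_local j h hh) (hsys.ω_local j')
  have cωω : ω j * ω j' = ω j' * ω j :=
    comm_of_local929 hne (hsys.ω_local j) (hsys.ω_local j')
  refine ⟨?_, ?_, ?_⟩
  · simp only [cosetOp]
    rw [Finset.sum_comm]
    refine Finset.sum_congr rfl fun h' hh' => Finset.sum_congr rfl fun h hh => ?_
    rw [mul_assoc, mul_assoc, cHH h hh h' hh']
  · simp only [cosetOp, trOp561]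
    refine Finset.sum_congr rfl fun h hh => ?_
    rw [mul_assoc, mul_assoc, cHω h hh]
  · simp only [trOp561]
    rw [mul_assoc, mul_assoc, cωω]

end Leaf

end Fermat.Agent.LT.T7.H929

end
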